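/-
S26lib / Aff / Riemann (helper9)  --  Project K (S26), brick (Aff).
Functions with prescribed poles and zeros from Riemann's theorem, first in the Prelude language of
places, then on a proper regular curve in scheme language (`Weil.PrimeDiv`, `Weil.ordAt`).
-/
import Mathlib
import Fermat.Agent.S26lib.CurvePlace.Curve

set_option autoImplicit false

noncomputable section

universe u

open AlgebraicGeometry CategoryTheory AlgebraicCurve

namespace Fermat.Agent.S26lib.Aff

open Fermat.Agent.S18lib Fermat.Agent.S18lib.Cech CechRR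

section Places

variable {K F : Type*} [Field K] [Field F] [Algebra K F] {γ : ℕ} (hF : IsCurveOfGenus K F γ)
include hF

/-- in large degree every place is not a base point -/
theorem exists_mem_rr_not_mem (E : Divisor K F) (hE : 2 * (γ : ℤ) - 1 < Divisor.degree E)
    (p : Place K F) :
    ∃ s ∈ riemannRochSpace E, s ∉ riemannRochSpace (E - Finsupp.single p 1) := by
  classical
  have := hF.finiteDimensional
  have hdeg : Divisor.degree (E - Finsupp.single p 1) = Divisor.degree E - 1 := by
    rw [map_sub, Divisor.degree_single, hF.deg_eq_one p]; simp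
  have e1 := hF.riemann_eq E (by omega)
  have e2 := hF.riemann_eq (E - Finsupp.single p 1) (by rw [hdeg]; omega)
  rw [hdeg] at e2
  have hle : riemannRochSpace (E - Finsupp.single p 1) ≤ riemannRochSpace E := by
    refine rr_mono fun v => ?_
    rw [Finsupp.sub_apply, Finsupp.single_apply]
    split_ifs <;> omega
  have hlt : riemannRochSpace (E - Finsupp.single p 1) < riemannRochSpace E := by
    refine lt_of_le_of_ne hle fun heq => ?_
    rw [heq] at e2
    omega
  obtain ⟨s, hs, hs'⟩ := SetLike.exists_of_lt hlt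
  exact ⟨s, hs, hs'⟩

/-- a function regular off `S`, vanishing on `Z`, and a unit at `p` -/
theorem exists_regular_vanishing (S Z : Finset (Place K F)) (hS : S.Nonempty)
    (hSZ : Disjoint S Z) (p : Place K F) (hpS : p ∉ S) (hpZ : p ∉ Z) :
    ∃ s : F, s ≠ 0 ∧ (∀ v, v ∉ S → 0 ≤ v.ord s) ∧ (∀ v ∈ Z, 1 ≤ v.ord s) ∧ p.ord s = 0 := by
  classical
  set n : ℕ := 2 * γ + Z.card + 1 with hn
  set E : Divisor K F := n • ind S - ind Z with hE
  have hc : 1 ≤ S.card := hS.card_pos
  have hdegE : Divisor.degree E = n * S.card - Z.card := by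
    rw [hE, map_sub, map_nsmul, degree_ind hF.deg_eq_one, degree_ind hF.deg_eq_one, nsmul_eq_mul]
  have hnS : (n : ℤ) ≤ n * S.card := by
    have : (n : ℤ) * 1 ≤ n * S.card :=
      mul_le_mul_of_nonneg_left (by exact_mod_cast hc) (Int.natCast_nonneg n)
    simpa using this
  obtain ⟨s, hs, hs'⟩ := exists_mem_rr_not_mem hF E (by rw [hdegE, hn] at *; push_cast at *; omega) p
  have hEadd : E - Finsupp.single p 1 + Finsupp.single p 1 = E := sub_add_cancel _ _
  obtain ⟨hs0, hord⟩ := ord_eq_of_mem_of_not_mem (D := E - Finsupp.single p 1) (P := p)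
    (by rw [hEadd]; exact hs) hs'
  have hEapp : ∀ v, E v = n * ind S v - ind Z v := by
    intro v
    rw [hE, Finsupp.sub_apply, Finsupp.smul_apply, nsmul_eq_mul]
  rw [mem_rr_of_ne hs0] at hs
  refine ⟨s, hs0, fun v hv => ?_, fun v hv => ?_, ?_⟩
  · have := hs v
    rw [hEapp, ind_apply_of_not_mem hv] at this
    have h2 := ind_nonneg Z v
    omega
  · have := hs v
    rw [hEapp, ind_apply_of_not_mem (Finset.disjoint_right.mp hSZ hv), ind_apply_of_mem hv] at this
    omega
  · rw [hord, Finsupp.sub_apply, Finsupp.single_apply, if_pos rfl, hEapp,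
      ind_apply_of_not_mem hpS, ind_apply_of_not_mem hpZ]
    ring

/-- a function regular off `S` with a pole at a given place of `S` -/
theorem exists_regular_pole (S : Finset (Place K F)) (p : Place K F) (hpS : p ∈ S) :
    ∃ s : F, s ≠ 0 ∧ (∀ v, v ∉ S → 0 ≤ v.ord s) ∧ p.ord s < 0 := by
  classical
  set n : ℕ := 2 * γ + 1 with hn
  set E : Divisor K F := n • ind S with hE
  have hc : 1 ≤ S.card := Finset.card_pos.mpr ⟨p, hpS⟩
  have hdegE : Divisor.degree E = n * S.card := by
    rw [hE, map_nsmul, degree_ind hF.deg_eq_one, nsmul_eq_mul]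
  have hnS : (n : ℤ) ≤ n * S.card := by
    have : (n : ℤ) * 1 ≤ n * S.card :=
      mul_le_mul_of_nonneg_left (by exact_mod_cast hc) (Int.natCast_nonneg n)
    simpa using this
  obtain ⟨s, hs, hs'⟩ := exists_mem_rr_not_mem hF E (by rw [hdegE, hn] at *; push_cast at *; omega) p
  have hEadd : E - Finsupp.single p 1 + Finsupp.single p 1 = E := sub_add_cancel _ _
  obtain ⟨hs0, hord⟩ := ord_eq_of_mem_of_not_mem (D := E - Finsupp.single p 1) (P := p)
    (by rw [hEadd]; exact hs) hs'
  have hEapp : ∀ v, E v = n * ind S v := by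
    intro v
    rw [hE, Finsupp.smul_apply, nsmul_eq_mul]
  rw [mem_rr_of_ne hs0] at hs
  refine ⟨s, hs0, fun v hv => ?_, ?_⟩
  · have := hs v
    rw [hEapp, ind_apply_of_not_mem hv] at this
    omega
  · rw [hord, Finsupp.sub_apply, Finsupp.single_apply, if_pos rfl, hEapp, ind_apply_of_mem hpS, hn]
    push_cast
    omega

end Places

/-! ### scheme language -/

open Weil CurvePlace

variable {K : Type u} [Field K] [IsAlgClosed K] {C : Scheme.{u}} [IsIntegral C]
  [IsLocallyNoetherian C] (fC : C ⟶ Spec (CommRingCat.of K))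
  [LocallyOfFiniteType fC] [IsSeparated fC]
  (htr : letI := kAlgebraFF fC; Algebra.trdeg K C.functionField = 1)
include htr

/-- **a function regular off `S`, vanishing on `Z`, and a unit at `p`** on a proper regular curve -/
theorem exists_regular_vanishing_scheme (S Z : Finset (PrimeDiv C)) (hS : S.Nonempty)
    (hSZ : Disjoint S Z) (p : PrimeDiv C) (hpS : p ∉ S) (hpZ : p ∉ Z) :
    ∃ s : C.functionField, s ≠ 0 ∧ (∀ Q, Q ∉ S → 0 ≤ ordAt Q s) ∧ (∀ Q ∈ Z, 1 ≤ ordAt Q s) ∧
      ordAt p s = 0 := by
  classical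
  let _ := kAlgebraFF fC
  obtain ⟨γ, hF⟩ := exists_isCurveOfGenus fC htr
  have hinj := placeOf_injective fC
  let e : PrimeDiv C ↪ Place K C.functionField := ⟨placeOf fC, hinj⟩
  obtain ⟨s, hs0, h1, h2, h3⟩ := exists_regular_vanishing hF (S.map e) (Z.map e)
    (hS.map) ((Finset.disjoint_map e).mpr hSZ) (e p)
    (by rw [Finset.mem_map']; exact hpS) (by rw [Finset.mem_map']; exact hpZ)
  refine ⟨s, hs0, fun Q hQ => ?_, fun Q hQ => ?_, ?_⟩
  · rw [← ord_placeOf fC Q s]
    exact h1 (e Q) (by rw [Finset.mem_map']; exact hQ)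
  · rw [← ord_placeOf fC Q s]
    exact h2 (e Q) (Finset.mem_map_of_mem e hQ)
  · rw [← ord_placeOf fC p s]
    exact h3

/-- **a function regular off `S` with a pole at a given point of `S`** on a proper regular curve -/
theorem exists_regular_pole_scheme (S : Finset (PrimeDiv C)) (p : PrimeDiv C) (hpS : p ∈ S) :
    ∃ s : C.functionField, s ≠ 0 ∧ (∀ Q, Q ∉ S → 0 ≤ ordAt Q s) ∧ ordAt p s < 0 := by
  classical
  let _ := kAlgebraFF fC
  obtain ⟨γ, hF⟩ := exists_isCurveOfGenus fC htr
  have hinj := placeOf_injective fC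
  let e : PrimeDiv C ↪ Place K C.functionField := ⟨placeOf fC, hinj⟩
  obtain ⟨s, hs0, h1, h2⟩ := exists_regular_pole hF (S.map e) (e p) (Finset.mem_map_of_mem e hpS)
  refine ⟨s, hs0, fun Q hQ => ?_, ?_⟩
  · rw [← ord_placeOf fC Q s]
    exact h1 (e Q) (by rw [Finset.mem_map']; exact hQ)
  · rw [← ord_placeOf fC p s]
    exact h2

end Fermat.Agent.S26lib.Aff
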