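/-
S26lib / Aff / Sections (helper9)  --  Project K (S26), brick (Aff).
Sections of the structure sheaf of an integral scheme as rational functions:

* `germFF_eq_toFF` : the rational function of a section is the image of its germ at any point;
* `exists_section_of_forall_mem_range` (gluing): a rational function lying in the local ring of
  every point of an open `U` is (the rational function of) a section over `U`;
* `mem_basicOpen_iff_ordAt`, `ordAt_germFF_nonneg` : zeros of sections at DVR points.
-/
import Mathlib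
import Fermat.Agent.S26lib.Weil.Model

set_option autoImplicit false

noncomputable section

universe u

open AlgebraicGeometry CategoryTheory TopologicalSpace Opposite

namespace Fermat.Agent.S26lib.Aff

open Weil

variable {C : Scheme.{u}} [IsIntegral C]

theorem genericPoint_mem {U : C.Opens} {y : C} (hy : y ∈ U) : genericPoint C ∈ U :=
  (Quad.generic_specializes C y).mem_open U.isOpen hy

/-- the rational function of a section over a non-empty open set -/
def germFF (U : C.Opens) {y : C} (hy : y ∈ U) : Γ(C, U) →+* C.functionField :=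
  (C.presheaf.germ U (genericPoint C) (genericPoint_mem hy)).hom

theorem germFF_eq_toFF (U : C.Opens) {y : C} (hy : y ∈ U) (s : Γ(C, U)) {z : C} (hz : z ∈ U) :
    germFF U hy s = Quad.toFF C z (C.presheaf.germ U z hz s) := by
  rw [Quad.toFF_eq]
  have := C.presheaf.germ_stalkSpecializes hz (Quad.generic_specializes C z)
  exact (congrArg (fun φ => φ.hom s) this).symm

theorem germFF_injective (U : C.Opens) {y : C} (hy : y ∈ U) :
    Function.Injective (germFF U hy) :=
  germ_injective_of_isIntegral C (genericPoint C) (genericPoint_mem hy)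

theorem germFF_res {U V : C.Opens} (hVU : V ≤ U) {y : C} (hy : y ∈ V) (s : Γ(C, U)) :
    germFF V hy (C.presheaf.map (homOfLE hVU).op s) = germFF U (hVU hy) s :=
  TopCat.Presheaf.germ_res_apply C.presheaf (homOfLE hVU) (genericPoint C) (genericPoint_mem hy) s

/-- **gluing**: a rational function which lies in the local ring of every point of `U` is a section
over `U` -/
theorem exists_section_of_forall_mem_range (U : C.Opens) {y : C} (hy : y ∈ U)
    (h : C.functionField) (hh : ∀ z ∈ U, h ∈ Set.range (Quad.toFF C z)) :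
    ∃ s : Γ(C, U), germFF U hy s = h := by
  -- local sections
  have hloc : ∀ z : U, ∃ (W : C.Opens) (hzW : z.1 ∈ W) (_ : W ≤ U) (t : Γ(C, W)),
      germFF W hzW t = h := by
    intro z
    obtain ⟨a, ha⟩ := hh z.1 z.2
    obtain ⟨W, hzW, t, ht⟩ := C.presheaf.exists_germ_eq a
    have hzWU : z.1 ∈ W ⊓ U := ⟨hzW, z.2⟩
    refine ⟨W ⊓ U, hzWU, inf_le_right, C.presheaf.map (homOfLE inf_le_left).op t, ?_⟩
    rw [germFF_res inf_le_left hzWU, germFF_eq_toFF W hzW t hzW, ht, ha]
  choose W hzW hWU t ht using hloc
  have hcompat : TopCat.Presheaf.IsCompatible C.sheaf.1 W t := by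
    intro i j
    have hη : genericPoint C ∈ W i ⊓ W j := ⟨genericPoint_mem (hzW i), genericPoint_mem (hzW j)⟩
    apply germ_injective_of_isIntegral C (genericPoint C) hη
    have h1 := TopCat.Presheaf.germ_res_apply C.presheaf (Opens.infLELeft (W i) (W j))
      (genericPoint C) hη (t i)
    have h2 := TopCat.Presheaf.germ_res_apply C.presheaf (Opens.infLERight (W i) (W j))
      (genericPoint C) hη (t j)
    exact h1.trans ((ht i).trans ((ht j).symm.trans h2.symm))
  have hcover : U ≤ iSup W := fun z hz => Opens.mem_iSup.2 ⟨⟨z, hz⟩, hzW ⟨z, hz⟩⟩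
  obtain ⟨s, hs, -⟩ := C.sheaf.existsUnique_gluing' W U (fun i => homOfLE (hWU i)) hcover t hcompat
  refine ⟨s, ?_⟩
  have h1 := germFF_res (hWU ⟨y, hy⟩) (hzW ⟨y, hy⟩) s
  have h2 : C.presheaf.map (homOfLE (hWU ⟨y, hy⟩)).op s = t ⟨y, hy⟩ := hs ⟨y, hy⟩
  rw [h2, ht] at h1
  exact h1.symm

variable [IsLocallyNoetherian C]

/-- a section has no pole at a DVR point of its domain -/
theorem ordAt_germFF_nonneg (U : C.Opens) {y : C} (hy : y ∈ U) (s : Γ(C, U)) (P : PrimeDiv C)
    (hP : P.1 ∈ U) : 0 ≤ ordAt P (germFF U hy s) := by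
  rw [germFF_eq_toFF U hy s hP]
  exact ordAt_toFF_nonneg P _

/-- the basic open set of a section: the DVR points where it does not vanish -/
theorem mem_basicOpen_iff_ordAt (U : C.Opens) {y : C} (hy : y ∈ U) (s : Γ(C, U)) (hs : s ≠ 0)
    (P : PrimeDiv C) (hP : P.1 ∈ U) :
    P.1 ∈ C.basicOpen s ↔ ordAt P (germFF U hy s) = 0 := by
  rw [germFF_eq_toFF U hy s hP, C.mem_basicOpen s P.1 hP]
  have hne : C.presheaf.germ U P.1 hP s ≠ 0 := by
    intro h0
    apply hs
    apply germ_injective_of_isIntegral C P.1 hP
    rw [h0, map_zero]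
  exact (ordAt_toFF_eq_zero_iff P hne).symm

end Fermat.Agent.S26lib.Aff
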