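/-
S26lib / Aff / Valuation (helper9)  --  Project K (S26), brick (Aff).
On a proper regular curve `C` over `K`:

* `exists_stalkVal_eq` : every valuation ring of `K(C)` containing `K`, other than `K(C)`, is the
  local ring of a DVR point;
* `isClosed_singleton_primeDiv` : DVR points are closed points; `compl_finset` : the complement of a
  finite set of DVR points, as an open subscheme.
-/
import Mathlib
import Fermat.Agent.S26lib.CurvePlace.Place
import Fermat.Agent.S26lib.VarSch.Dict

set_option autoImplicit false

noncomputable section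

universe u

open AlgebraicGeometry CategoryTheory TopologicalSpace

namespace Fermat.Agent.S26lib.Aff

open Weil CurvePlace

variable {K : Type u} [Field K] {C : Scheme.{u}} [IsIntegral C]

/-- DVR points of a regular curve are closed points -/
theorem isClosed_singleton_primeDiv
    (hreg : ∀ c : C, c = genericPoint C ∨ IsDiscreteValuationRing (C.presheaf.stalk c))
    (P : PrimeDiv C) : IsClosed ({P.1} : Set C) := by
  have hPη : P.1 ≠ genericPoint C := VarSch.ne_generic_of_coheight_eq_one (coheight_primeDiv P)
  rw [← closure_subset_iff_isClosed]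
  intro y hy
  have hspec : P.1 ⤳ y := specializes_iff_mem_closure.mpr hy
  have hyη : y ≠ genericPoint C := by
    rintro rfl
    exact hPη (Specializes.antisymm hspec (Quad.generic_specializes C P.1)).eq
  have hy1 : Order.coheight y = 1 := coheight_primeDiv ⟨y, (hreg y).resolve_left hyη⟩
  exact (VarSch.eq_of_specializes_of_coheight_eq_one hspec hPη hy1).symm

/-- the complement of a finite set of DVR points of a regular curve -/
def complOpen
    (hreg : ∀ c : C, c = genericPoint C ∨ IsDiscreteValuationRing (C.presheaf.stalk c))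
    (S : Finset (PrimeDiv C)) : C.Opens :=
  ⟨(⋃ P ∈ S, ({P.1} : Set C))ᶜ,
    (S.finite_toSet.isClosed_biUnion fun P _ => isClosed_singleton_primeDiv hreg P).isOpen_compl⟩

theorem mem_complOpen_iff
    (hreg : ∀ c : C, c = genericPoint C ∨ IsDiscreteValuationRing (C.presheaf.stalk c))
    (S : Finset (PrimeDiv C)) (y : C) : y ∈ complOpen hreg S ↔ ∀ P ∈ S, y ≠ P.1 := by
  show y ∈ (⋃ P ∈ S, ({P.1} : Set C))ᶜ ↔ _
  simp only [Set.mem_compl_iff, Set.mem_iUnion, Set.mem_singleton_iff, not_exists]

theorem primeDiv_mem_complOpen_iff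
    (hreg : ∀ c : C, c = genericPoint C ∨ IsDiscreteValuationRing (C.presheaf.stalk c))
    (S : Finset (PrimeDiv C)) (Q : PrimeDiv C) : Q.1 ∈ complOpen hreg S ↔ Q ∉ S := by
  rw [mem_complOpen_iff]
  constructor
  · intro h hQ
    exact h Q hQ rfl
  · intro h P hP hQP
    exact h ((Subtype.ext hQP : Q = P) ▸ hP)

theorem genericPoint_mem_complOpen
    (hreg : ∀ c : C, c = genericPoint C ∨ IsDiscreteValuationRing (C.presheaf.stalk c))
    (S : Finset (PrimeDiv C)) : genericPoint C ∈ complOpen hreg S := by
  rw [mem_complOpen_iff]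
  intro P _ h
  exact VarSch.ne_generic_of_coheight_eq_one (coheight_primeDiv P) h.symm

variable [IsLocallyNoetherian C]

/-- On a universally closed regular curve every non-trivial valuation ring of the function field
over `K` is the local ring of a DVR point. -/
theorem exists_stalkVal_eq (fC : C ⟶ Spec (CommRingCat.of K)) [UniversallyClosed fC]
    [QuasiCompact fC]
    (hreg : ∀ c : C, c = genericPoint C ∨ IsDiscreteValuationRing (C.presheaf.stalk c))
    (W : ValuationSubring C.functionField) (hK : ∀ c : K, (kToFF fC).hom c ∈ W) (hW : W ≠ ⊤) :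
    ∃ P : PrimeDiv C, stalkVal P = W := by
  obtain ⟨z, hz₁, hz₂⟩ := P5a.exists_centre fC W hK
  have hzη : z ≠ genericPoint C := by
    rintro rfl
    apply hW
    refine SetLike.ext fun x => ⟨fun _ => ValuationSubring.mem_top x, fun _ => ?_⟩
    have := hz₁ x
    rwa [Quad.toFF_generic] at this
  have hdvr := (hreg z).resolve_left hzη
  let P : PrimeDiv C := ⟨z, hdvr⟩
  refine ⟨P, SetLike.ext fun x => ⟨?_, fun hx => ?_⟩⟩
  · rintro ⟨a, rfl⟩
    exact hz₁ a
  · by_contra hnot
    have hx0 : x ≠ 0 := by
      rintro rfl
      exact hnot (zero_mem _)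
    have hneg : ordAt P x < 0 := by
      by_contra hge
      exact hnot ((mem_stalkVal_iff_ordAt hx0).mpr (not_lt.mp hge))
    have hpos : 0 < ordAt P x⁻¹ := by rw [ordAt_inv]; omega
    obtain ⟨a, ham, hax⟩ := (ordAt_pos_iff P (inv_ne_zero hx0)).mp hpos
    have hne : algebraMap (C.presheaf.stalk z) C.functionField a ≠ 0 := by
      show Quad.toFF C z a ≠ 0
      rw [hax]; exact inv_ne_zero hx0
    apply hz₂ a ham hne
    show (Quad.toFF C z a)⁻¹ ∈ W
    rw [hax, inv_inv]
    exact hx

end Fermat.Agent.S26lib.Aff
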