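/-
S26lib / Aff / Affine (helper9)  --  Project K (S26), brick (Aff).
**The complement of a non-empty finite set of points of a proper regular curve over an algebraically
closed field is affine.**

Proof: Mathlib's criterion `isAffineOpen_of_isAffineOpen_basicOpen`.  Riemann's theorem produces, for
each point `p` of `U = C ∖ S`, a section `t_p ∈ Γ(C, U)` not vanishing at `p` whose basic open set is a
basic open set of an affine neighbourhood of `p`; these sections generate the unit ideal because a
maximal ideal containing them would be dominated by a valuation ring of `K(C)`, i.e. by the local ring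
of a point of `U`.
-/
import Mathlib
import Fermat.Agent.S26lib.Aff.Sections
import Fermat.Agent.S26lib.Aff.Valuation
import Fermat.Agent.S26lib.Aff.Riemann

set_option autoImplicit false

noncomputable section

universe u

open AlgebraicGeometry CategoryTheory TopologicalSpace

namespace Fermat.Agent.S26lib.Aff

open Weil CurvePlace

/-- a set of elements of a subring of a field generates the unit ideal if in every valuation ring
containing the subring one of them is a unit -/
theorem span_eq_top_of_forall_valuationSubring {R F : Type*} [CommRing R] [Field F] (φ : R →+* F)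
    (hφ : Function.Injective φ) (s : Set R)
    (h : ∀ W : ValuationSubring F, (∀ r, φ r ∈ W) → ∃ i ∈ s, φ i ∉ W.nonunits) :
    Ideal.span s = ⊤ := by
  by_contra hI
  have hsurj : Function.Surjective φ.rangeRestrict := φ.rangeRestrict_surjective
  have hI' : (Ideal.span s).map φ.rangeRestrict ≠ ⊤ := by
    intro htop
    apply hI
    rw [Ideal.eq_top_iff_one] at htop ⊢
    obtain ⟨a, ha, ha1⟩ := (Ideal.mem_map_iff_of_surjective _ hsurj).mp htop
    have : a = 1 := hφ (by
      have := congrArg Subtype.val ha1
      simpa using this)
    rwa [this] at ha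
  obtain ⟨B, hle, hsub⟩ := Ideal.image_subset_nonunits_valuationSubring _ hI'
  obtain ⟨i, hi, hni⟩ := h B (fun r => hle (φ.rangeRestrict r).2)
  apply hni
  apply hsub
  exact ⟨φ.rangeRestrict i, Ideal.mem_map_of_mem _ (Ideal.subset_span hi), rfl⟩

section Pre

variable {C : Scheme.{u}} [IsIntegral C]
  (hreg : ∀ c : C, c = genericPoint C ∨ IsDiscreteValuationRing (C.presheaf.stalk c))

/-- a point of a regular curve other than the generic point, as a DVR point -/
def toPrimeDiv {y : C} (hy : y ≠ genericPoint C) : PrimeDiv C := ⟨y, (hreg y).resolve_left hy⟩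

variable [IsLocallyNoetherian C]

/-- a rational function without poles off `S` is a section over `C ∖ S` -/
theorem exists_section_complOpen (S : Finset (PrimeDiv C)) (s : C.functionField)
    (hs : ∀ Q, Q ∉ S → 0 ≤ ordAt Q s) :
    ∃ t : Γ(C, complOpen hreg S),
      germFF (complOpen hreg S) (genericPoint_mem_complOpen hreg S) t = s := by
  apply exists_section_of_forall_mem_range
  intro z hz
  by_cases hzη : z = genericPoint C
  · subst hzη
    exact ⟨s, Quad.toFF_generic C s⟩
  · rcases eq_or_ne s 0 with rfl | hs0
    · exact ⟨0, map_zero _⟩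
    have hQ : toPrimeDiv hreg hzη ∉ S :=
      (primeDiv_mem_complOpen_iff hreg S (toPrimeDiv hreg hzη)).mp hz
    exact (ordAt_nonneg_iff (toPrimeDiv hreg hzη) hs0).mp (hs _ hQ)

end Pre

variable {K : Type u} [Field K] [IsAlgClosed K] {C : Scheme.{u}} [IsIntegral C]
  [IsLocallyNoetherian C] (fC : C ⟶ Spec (CommRingCat.of K))
  [LocallyOfFiniteType fC] [IsSeparated fC] [UniversallyClosed fC] [QuasiCompact fC]
  (hreg : ∀ c : C, c = genericPoint C ∨ IsDiscreteValuationRing (C.presheaf.stalk c))
  (htr : letI := kAlgebraFF fC; Algebra.trdeg K C.functionField = 1)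

omit [UniversallyClosed fC] in
include htr in
/-- the local sections: for every point `p` of `C ∖ S` a section over `C ∖ S` which is a unit at `p`
and whose basic open set is affine -/
theorem exists_section_isAffineOpen_basicOpen (S : Finset (PrimeDiv C)) (hS : S.Nonempty)
    (p : PrimeDiv C) (hp : p ∉ S) :
    ∃ t : Γ(C, complOpen hreg S), IsAffineOpen (C.basicOpen t) ∧
      ordAt p (germFF (complOpen hreg S) (genericPoint_mem_complOpen hreg S) t) = 0 ∧ t ≠ 0 := by
  classical
  have : CompactSpace C := QuasiCompact.compactSpace_of_compactSpace fC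
  have : IsNoetherian C := {}
  set U := complOpen hreg S with hU
  have hpU : p.1 ∈ U := (primeDiv_mem_complOpen_iff hreg S p).mpr hp
  -- an affine neighbourhood of `p` inside `U`
  obtain ⟨_, ⟨V, hV, rfl⟩, hpV, hVU⟩ := C.isBasis_affineOpens.exists_subset_of_mem_open hpU U.isOpen
  have hVU' : V ≤ U := hVU
  have : Nonempty V := ⟨⟨p.1, hpV⟩⟩
  have hηV : genericPoint C ∈ V := genericPoint_mem hpV
  -- the finitely many points of `U` outside `V`
  have hfin : {Q : PrimeDiv C | Q.1 ∉ V}.Finite := by
    have h1 := P5a.finite_coheight_one_not_mem V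
    refine (h1.preimage (f := fun Q : PrimeDiv C => Q.1) ?_).subset ?_
    · intro Q _ Q' _ h
      exact Subtype.ext h
    · intro Q hQ
      exact ⟨coheight_primeDiv Q, hQ⟩
  set Z : Finset (PrimeDiv C) := hfin.toFinset \ S with hZ
  have hSZ : Disjoint S Z := by
    rw [Finset.disjoint_right]
    intro Q hQ
    exact (Finset.mem_sdiff.mp hQ).2
  have hpZ : p ∉ Z := by
    intro h
    have := (Finset.mem_sdiff.mp h).1
    rw [Set.Finite.mem_toFinset] at this
    exact this hpV
  obtain ⟨s, hs0, hs1, hs2, hs3⟩ := exists_regular_vanishing_scheme fC htr S Z hS hSZ p hp hpZ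
  obtain ⟨t, ht⟩ := exists_section_complOpen hreg S s hs1
  have ht0 : t ≠ 0 := by
    rintro rfl
    rw [map_zero] at ht
    exact hs0 ht.symm
  refine ⟨t, ?_, by rw [ht]; exact hs3, ht0⟩
  -- the basic open set lies in `V`
  have hle : C.basicOpen t ≤ V := by
    intro y hy
    have hyU : y ∈ U := C.basicOpen_le t hy
    by_contra hyV
    have hyη : y ≠ genericPoint C := by
      rintro rfl
      exact hyV hηV
    set Q := toPrimeDiv hreg hyη with hQ
    have hQS : Q ∉ S := (primeDiv_mem_complOpen_iff hreg S Q).mp hyU
    have hQZ : Q ∈ Z := by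
      rw [hZ, Finset.mem_sdiff, Set.Finite.mem_toFinset]
      exact ⟨hyV, hQS⟩
    have h1 := hs2 Q hQZ
    have h2 := (mem_basicOpen_iff_ordAt U (genericPoint_mem_complOpen hreg S) t ht0 Q hyU).mp hy
    rw [ht] at h2
    omega
  have hres : C.basicOpen (C.presheaf.map (homOfLE hVU').op t) = C.basicOpen t := by
    rw [C.basicOpen_res]
    exact inf_eq_right.mpr hle
  rw [← hres]
  exact hV.basicOpen _

omit [IsSeparated fC] in
include hreg htr in
/-- the DVR points of a proper regular curve form an infinite set -/
theorem infinite_primeDiv : Infinite (PrimeDiv C) := by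
  let _ := kAlgebraFF fC
  obtain ⟨γ, hF⟩ := exists_isCurveOfGenus fC htr
  have := hF.infinite_places
  exact Infinite.of_surjective _ (placeOf_surjective fC hreg)

include hreg htr in
/-- **Theorem A**: the complement of a non-empty finite set of points of a proper regular curve over
an algebraically closed field is an affine open subscheme. -/
theorem isAffineOpen_complOpen (S : Finset (PrimeDiv C)) (hS : S.Nonempty) :
    IsAffineOpen (complOpen hreg S) := by
  classical
  set U := complOpen hreg S with hU
  have hηU : genericPoint C ∈ U := genericPoint_mem_complOpen hreg S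
  refine isAffineOpen_of_isAffineOpen_basicOpen U
    {t : Γ(C, U) | IsAffineOpen (C.basicOpen t)} ?_ (fun t ht => ht)
  refine span_eq_top_of_forall_valuationSubring (germFF U hηU) (germFF_injective U hηU) _ ?_
  intro W hW
  by_cases hWtop : W = ⊤
  · -- the trivial valuation ring: any non-zero section will do
    have := infinite_primeDiv fC hreg htr
    obtain ⟨p, hp⟩ := Infinite.exists_notMem_finset S
    obtain ⟨t, hta, -, ht0⟩ := exists_section_isAffineOpen_basicOpen fC hreg htr S hS p hp
    refine ⟨t, hta, ?_⟩
    rw [ValuationSubring.mem_nonunits_iff_or, hWtop]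
    rintro (h | h)
    · exact ht0 (germFF_injective U hηU (by rw [h, map_zero]))
    · exact h (ValuationSubring.mem_top _)
  · -- a non-trivial valuation ring is the local ring of a point of `U`
    have hK : ∀ c : K, (kToFF fC).hom c ∈ W := by
      intro c
      have : Nonempty U := ⟨⟨genericPoint C, hηU⟩⟩
      have := P5a.constHomOpen_germ fC U
      have h1 : (kToFF fC).hom c = germFF U hηU ((P5a.constHomOpen fC U).hom c) :=
        (congrArg (fun φ => φ.hom c) this).symm
      rw [h1]
      exact hW _
    obtain ⟨P, hP⟩ := exists_stalkVal_eq fC hreg W hK hWtop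
    have hPS : P ∉ S := by
      intro hPS
      obtain ⟨s, hs0, hs1, hs2⟩ := exists_regular_pole_scheme fC htr S P hPS
      obtain ⟨t, ht⟩ := exists_section_complOpen hreg S s hs1
      have hmem : s ∈ stalkVal P := by rw [hP, ← ht]; exact hW t
      have := (mem_stalkVal_iff_ordAt hs0).mp hmem
      omega
    obtain ⟨t, hta, htP, ht0⟩ := exists_section_isAffineOpen_basicOpen fC hreg htr S hS P hPS
    refine ⟨t, hta, ?_⟩
    have hne : germFF U hηU t ≠ 0 := fun h => ht0 (germFF_injective U hηU (by rw [h, map_zero]))
    rw [ValuationSubring.mem_nonunits_iff_or, ← hP]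
    rintro (h | h)
    · exact hne h
    · apply h
      rw [mem_stalkVal_iff_ordAt (inv_ne_zero hne), ordAt_inv, htP]
      rfl

end Fermat.Agent.S26lib.Aff
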