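/-
S26lib / Aff / Integral (helper9)  --  Project K (S26), brick (Aff).
Pure algebra for the finiteness of the coordinate rings of the two charts of a curve:

* `isIntegral_of_forall_valuationSubring` : an element of a field lying in every valuation ring
  containing the image of `R` is integral over `R`;
* `transcendental_of_not_mem_range`, `finiteDimensional_adjoin_of_transcendental` : in a function
  field of one variable over an algebraically closed field every non-constant element `x` is
  transcendental and the field is finite over `K(x)`;
* `finite_eval₂_of_isIntegral` : a `K`-algebra embedded in such a field, all of whose elements are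
  integral over `K[x]`, is module-finite over `K[x]`.
-/
import Mathlib
import Fermat.Agent.S18lib.RRgen.Canonical
import Fermat.Agent.S26lib.NormFin.Main

set_option autoImplicit false

noncomputable section

namespace Fermat.Agent.S26lib.Aff

open Polynomial IntermediateField Fermat.Agent.S18lib

/-- an element of a field which lies in every valuation ring containing the image of `R` is
integral over `R` -/
theorem isIntegral_of_forall_valuationSubring {R F : Type*} [CommRing R] [Field F] [Algebra R F]
    (y : F) (h : ∀ W : ValuationSubring F, (∀ r : R, algebraMap R F r ∈ W) → y ∈ W) :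
    IsIntegral R y := by
  set s : Set F := Set.range (algebraMap R F) with hs
  have hmem : y ∈ (⨅ V : {V : ValuationSubring F // s ⊆ V.toSubring}, V.1.toSubring) := by
    rw [Subring.mem_iInf]
    rintro ⟨V, hV⟩
    exact h V fun r => hV ⟨r, rfl⟩
  rw [iInf_valuationSubring_superset] at hmem
  have hint : IsIntegral (Subring.closure s) y := hmem
  -- the closure of the range is the range
  have hcl : Subring.closure s = (algebraMap R F).range := by
    rw [hs, ← RingHom.coe_range, Subring.closure_eq]
  let g : R →+* Subring.closure s :=
    (algebraMap R F).codRestrict (Subring.closure s) fun r => Subring.subset_closure ⟨r, rfl⟩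
  let _ : Algebra R (Subring.closure s) := g.toAlgebra
  have : IsScalarTower R (Subring.closure s) F := IsScalarTower.of_algebraMap_eq fun r => rfl
  have : Algebra.IsIntegral R (Subring.closure s) := by
    refine ⟨fun z => ?_⟩
    have hz : (z : F) ∈ (algebraMap R F).range := hcl ▸ z.2
    obtain ⟨r, hr⟩ := hz
    have : z = algebraMap R (Subring.closure s) r := Subtype.ext hr.symm
    rw [this]
    exact isIntegral_algebraMap
  exact isIntegral_trans y hint

/-- over an algebraically closed field the elements outside the image of `K` are transcendental -/
theorem transcendental_of_not_mem_range {K F : Type*} [Field K] [IsAlgClosed K] [Field F]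
    [Algebra K F] {x : F} (hx : x ∉ Set.range (algebraMap K F)) : Transcendental K x := by
  intro halg
  apply hx
  have hint : IsIntegral K x := halg.isIntegral
  have hirr := minpoly.irreducible hint
  have hdeg := IsAlgClosed.degree_eq_one_of_irreducible K hirr
  exact minpoly.mem_range_of_degree_eq_one K x hdeg

/-- a function field of one variable is finite over `K(x)` for every transcendental `x` -/
theorem finiteDimensional_adjoin_of_transcendental (K F : Type*) [Field K] [Field F] [Algebra K F]
    [Algebra.EssFiniteType K F] (h : Algebra.trdeg K F = 1) {x : F} (hx : Transcendental K x) :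
    FiniteDimensional K⟮x⟯ F := by
  have hind : AlgebraicIndependent K (fun _ : Unit => x) :=
    algebraicIndependent_unique_type_iff.mpr hx
  have hbasis : IsTranscendenceBasis K (fun _ : Unit => x) := by
    refine hind.isTranscendenceBasis_of_lift_trdeg_le_of_finite ?_
    rw [h]
    simp
  have halg := hbasis.isAlgebraic_field
  have hrange : Set.range (fun _ : Unit => x) = {x} := by
    ext z
    simp [eq_comm]
  rw [hrange] at halg
  have hess : Algebra.EssFiniteType K⟮x⟯ F := Algebra.EssFiniteType.of_comp K K⟮x⟯ F
  exact Algebra.finite_of_essFiniteType_of_isAlgebraic (F := K⟮x⟯) (E := F)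

/-- **finiteness of a chart ring**: a ring `A` embedded in a function field `F` of one variable
over an algebraically closed field `K`, containing `K` and a transcendental `x`, all of whose
elements are integral over `K[x]`, is module-finite over `K[x]` -/
theorem finite_eval₂_of_isIntegral (K F : Type*) [Field K] [IsAlgClosed K] [Field F] [Algebra K F]
    [Algebra.EssFiniteType K F] (h : Algebra.trdeg K F = 1) {x : F} (hx : Transcendental K x)
    {A : Type*} [CommRing A] (ψ : A →+* F) (hψ : Function.Injective ψ) (c : K →+* A)
    (hc : ∀ k : K, ψ (c k) = algebraMap K F k) (x₁ : A) (hx₁ : ψ x₁ = x)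
    (hint : ∀ a : A, letI := RRgen.Canonical.polyAlgebra K x; IsIntegral K[X] (ψ a)) :
    (Polynomial.eval₂RingHom c x₁).Finite := by
  let _ := RRgen.Canonical.polyAlgebra K x
  let _ := RRgen.Canonical.ratFuncAlgebra K hx
  have := RRgen.Canonical.isScalarTower_poly_ratFunc K hx
  have := RRgen.Canonical.isScalarTower_const_ratFunc K hx
  have := finiteDimensional_adjoin_of_transcendental K F h hx
  have := RRgen.Canonical.finiteDimensional_ratFunc K hx
  have hfin : Module.Finite K[X] (integralClosure K[X] F) :=
    NormFin.finite_integralClosure K K[X] (RatFunc K) F
  have hnoeth : IsNoetherian K[X] (integralClosure K[X] F) :=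
    isNoetherian_of_isNoetherianRing_of_finite _ _
  -- `A` as a `K[X]`-algebra
  let g : K[X] →+* A := Polynomial.eval₂RingHom c x₁
  let _ : Algebra K[X] A := g.toAlgebra
  have hcomp : ∀ p : K[X], ψ (g p) = algebraMap K[X] F p := by
    intro p
    have : ψ.comp g = algebraMap K[X] F := by
      apply Polynomial.ringHom_ext
      · intro k
        show ψ (Polynomial.eval₂ c x₁ (C k)) = Polynomial.aeval x (C k)
        rw [Polynomial.eval₂_C, hc, Polynomial.aeval_C]
      · show ψ (Polynomial.eval₂ c x₁ X) = Polynomial.aeval x X
        rw [Polynomial.eval₂_X, hx₁, Polynomial.aeval_X]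
    exact congrArg (fun φ => φ p) this
  let f : A →ₗ[K[X]] integralClosure K[X] F :=
    { toFun := fun a => ⟨ψ a, hint a⟩
      map_add' := fun a b => Subtype.ext (map_add ψ a b)
      map_smul' := fun p a => Subtype.ext (by
        show ψ (g p * a) = algebraMap K[X] F p * ψ a
        rw [map_mul, hcomp]) }
  have hf : Function.Injective f := fun a b hab => hψ (congrArg Subtype.val hab)
  exact Module.Finite.of_injective f hf

end Fermat.Agent.S26lib.Aff
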