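/-
S26lib / Aff / Chart (helper9)  --  Project K (S26), brick (Aff).
**The two-chart atlas of a proper regular curve defined by a non-constant rational function.**

For `x ∈ K(C)` non-constant, `U₁ := C ∖ {poles of x}` and `U₂ := C ∖ {zeros of x}` are affine open
subschemes covering `C`, `x` is a section `x₁` over `U₁`, `x⁻¹` a section `x₂` over `U₂`,
`U₁ ∩ U₂ = D(x₁) = D(x₂)`, and `Γ(C, U₁)` (resp. `Γ(C, U₂)`) is a finite module over `K[x₁]`
(resp. `K[x₂]`).  Packaged as the structure `ChartPair fC x`; existence: `nonempty_chartPair`.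
-/
import Mathlib
import Fermat.Agent.S26lib.Aff.Affine
import Fermat.Agent.S26lib.Aff.Integral

set_option autoImplicit false

noncomputable section

universe u

open AlgebraicGeometry CategoryTheory TopologicalSpace

namespace Fermat.Agent.S26lib.Aff

open Weil CurvePlace Polynomial Fermat.Agent.S18lib

section Def

variable {K : Type u} [Field K] {C : Scheme.{u}} [IsIntegral C] [IsLocallyNoetherian C]

/-- the two-chart atlas `{x ≠ ∞}`, `{x ≠ 0}` of a curve `C` over `K` defined by a rational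
function `x` -/
structure ChartPair (fC : C ⟶ Spec (CommRingCat.of K)) (x : C.functionField) where
  /-- the chart `{x ≠ ∞}` -/
  U₁ : C.Opens
  /-- the chart `{x ≠ 0}` -/
  U₂ : C.Opens
  isAffineOpen₁ : IsAffineOpen U₁
  isAffineOpen₂ : IsAffineOpen U₂
  sup_eq : U₁ ⊔ U₂ = ⊤
  generic_mem₁ : genericPoint C ∈ U₁
  generic_mem₂ : genericPoint C ∈ U₂
  mem₁_iff : ∀ P : PrimeDiv C, P.1 ∈ U₁ ↔ 0 ≤ ordAt P x
  mem₂_iff : ∀ P : PrimeDiv C, P.1 ∈ U₂ ↔ ordAt P x ≤ 0
  /-- the coordinate `x` on `U₁` -/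
  x₁ : Γ(C, U₁)
  /-- the coordinate `x⁻¹` on `U₂` -/
  x₂ : Γ(C, U₂)
  germ_x₁ : C.presheaf.germ U₁ (genericPoint C) generic_mem₁ x₁ = x
  germ_x₂ : C.presheaf.germ U₂ (genericPoint C) generic_mem₂ x₂ = x⁻¹
  inf_eq₁ : U₁ ⊓ U₂ = C.basicOpen x₁
  inf_eq₂ : U₁ ⊓ U₂ = C.basicOpen x₂
  mul_eq_one : C.presheaf.map (homOfLE (inf_le_left : U₁ ⊓ U₂ ≤ U₁)).op x₁ *
    C.presheaf.map (homOfLE (inf_le_right : U₁ ⊓ U₂ ≤ U₂)).op x₂ = 1
  finite₁ : (Polynomial.eval₂RingHom (P5a.constHomOpen fC U₁).hom x₁).Finite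
  finite₂ : (Polynomial.eval₂RingHom (P5a.constHomOpen fC U₂).hom x₂).Finite

/-- an open subset of a section's domain which contains the generic point and exactly the DVR points
where the section is a unit is the basic open set of the section -/
theorem eq_basicOpen_of_ordAt
    (hreg : ∀ c : C, c = genericPoint C ∨ IsDiscreteValuationRing (C.presheaf.stalk c))
    (U V : C.Opens) (hηU : genericPoint C ∈ U) (s : Γ(C, U)) (hs : s ≠ 0) (hVU : V ≤ U)
    (hηV : genericPoint C ∈ V)
    (h : ∀ Q : PrimeDiv C, Q.1 ∈ U → (Q.1 ∈ V ↔ ordAt Q (germFF U hηU s) = 0)) :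
    V = C.basicOpen s := by
  ext y
  constructor
  · intro hyV
    have hyU : y ∈ U := hVU hyV
    by_cases hyη : y = genericPoint C
    · subst hyη
      rw [SetLike.mem_coe, C.mem_basicOpen s _ hyU]
      have hne : germFF U hηU s ≠ 0 := fun h0 =>
        hs (germFF_injective U hηU (by rw [h0, map_zero]))
      exact (isUnit_iff_ne_zero (G₀ := C.functionField)).mpr hne
    · exact (mem_basicOpen_iff_ordAt U hηU s hs (toPrimeDiv hreg hyη) hyU).mpr
        ((h (toPrimeDiv hreg hyη) hyU).mp hyV)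
  · intro hy
    have hyU : y ∈ U := C.basicOpen_le s hy
    by_cases hyη : y = genericPoint C
    · subst hyη; exact hηV
    · exact (h (toPrimeDiv hreg hyη) hyU).mpr
        ((mem_basicOpen_iff_ordAt U hηU s hs (toPrimeDiv hreg hyη) hyU).mp hy)

end Def

variable {K : Type u} [Field K] [IsAlgClosed K] {C : Scheme.{u}} [IsIntegral C]
  [IsLocallyNoetherian C] (fC : C ⟶ Spec (CommRingCat.of K))
  [LocallyOfFiniteType fC] [IsSeparated fC] [UniversallyClosed fC] [QuasiCompact fC]
  (hreg : ∀ c : C, c = genericPoint C ∨ IsDiscreteValuationRing (C.presheaf.stalk c))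
  (htr : letI := kAlgebraFF fC; Algebra.trdeg K C.functionField = 1)

omit [IsAlgClosed K] [LocallyOfFiniteType fC] [IsSeparated fC] in
include hreg in
/-- sections over an open set containing every point where `x` has no pole are integral over
`K[x]` -/
theorem isIntegral_germFF {x : C.functionField} (hx0 : x ≠ 0) (U : C.Opens)
    (hη : genericPoint C ∈ U) (hU : ∀ P : PrimeDiv C, 0 ≤ ordAt P x → P.1 ∈ U) (a : Γ(C, U)) :
    letI := kAlgebraFF fC
    letI := RRgen.Canonical.polyAlgebra K x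
    IsIntegral K[X] (germFF U hη a) := by
  let _ := kAlgebraFF fC
  let _ := RRgen.Canonical.polyAlgebra K x
  apply isIntegral_of_forall_valuationSubring
  intro W hW
  by_cases hWtop : W = ⊤
  · rw [hWtop]; exact ValuationSubring.mem_top _
  have hK : ∀ c : K, (kToFF fC).hom c ∈ W := by
    intro c
    have := hW (Polynomial.C c)
    rwa [RRgen.Canonical.algebraMap_polyAlgebra, Polynomial.aeval_C] at this
  have hxW : x ∈ W := by
    have := hW Polynomial.X
    rwa [RRgen.Canonical.algebraMap_polyAlgebra, Polynomial.aeval_X] at this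
  obtain ⟨P, rfl⟩ := exists_stalkVal_eq fC hreg W hK hWtop
  have hP : P.1 ∈ U := hU P ((mem_stalkVal_iff_ordAt hx0).mp hxW)
  rw [germFF_eq_toFF U hη a hP]
  exact toFF_mem_stalkVal P _

omit [IsSeparated fC] in
include hreg htr in
/-- **finiteness of a chart**: the ring of sections over the complement of the poles of a
non-constant `x` is a finite module over `K[x]` -/
theorem finite_chart {x : C.functionField} (hx : x ∉ Set.range (kToFF fC).hom)
    (S : Finset (PrimeDiv C)) (hS : ∀ P, P ∈ S ↔ ordAt P x < 0)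
    (x₁ : Γ(C, complOpen hreg S))
    (hx₁ : germFF (complOpen hreg S) (genericPoint_mem_complOpen hreg S) x₁ = x) :
    (Polynomial.eval₂RingHom (P5a.constHomOpen fC (complOpen hreg S)).hom x₁).Finite := by
  let _ := kAlgebraFF fC
  have hx0 : x ≠ 0 := by
    rintro rfl
    exact hx ⟨0, map_zero _⟩
  have hxT : Transcendental K x := transcendental_of_not_mem_range hx
  have := essFiniteType_functionField fC
  have hη : genericPoint C ∈ complOpen hreg S := genericPoint_mem_complOpen hreg S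
  have : Nonempty (complOpen hreg S) := ⟨⟨genericPoint C, hη⟩⟩
  refine finite_eval₂_of_isIntegral K C.functionField htr hxT (germFF (complOpen hreg S) hη)
    (germFF_injective (complOpen hreg S) hη) (P5a.constHomOpen fC (complOpen hreg S)).hom
    (fun k => ?_) x₁ hx₁ (fun a => ?_)
  · have := P5a.constHomOpen_germ fC (complOpen hreg S)
    exact congrArg (fun φ => φ.hom k) this
  · refine isIntegral_germFF fC hreg hx0 (complOpen hreg S) hη (fun P hP => ?_) a
    rw [primeDiv_mem_complOpen_iff, hS]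
    omega

include hreg htr in
/-- **the two-chart atlas defined by a non-constant rational function on a proper regular curve**
over an algebraically closed field -/
theorem nonempty_chartPair {x : C.functionField} (hx : x ∉ Set.range (kToFF fC).hom) :
    Nonempty (ChartPair fC x) := by
  classical
  let _ := kAlgebraFF fC
  obtain ⟨γ, hF⟩ := exists_isCurveOfGenus fC htr
  have hinj := placeOf_injective fC
  have hsurj := placeOf_surjective fC hreg
  have hx' : x ∉ Set.range (algebraMap K C.functionField) := hx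
  have hx0 : x ≠ 0 := by
    rintro rfl
    exact hx ⟨0, map_zero _⟩
  have hxi : x⁻¹ ∉ Set.range (kToFF fC).hom := by
    rintro ⟨c, hc⟩
    apply hx
    refine ⟨c⁻¹, ?_⟩
    rw [map_inv₀, hc, inv_inv]
  obtain ⟨T₁, T₂, hT₁, hT₂, -, hne₁, hne₂⟩ := CechRR.exists_poles_zeros hF hx'
  set S₁ : Finset (PrimeDiv C) := T₁.preimage (placeOf fC) hinj.injOn with hS₁def
  set S₂ : Finset (PrimeDiv C) := T₂.preimage (placeOf fC) hinj.injOn with hS₂def
  have hS₁ : ∀ P, P ∈ S₁ ↔ ordAt P x < 0 := by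
    intro P
    rw [hS₁def, Finset.mem_preimage, hT₁, ord_placeOf]
  have hS₂ : ∀ P, P ∈ S₂ ↔ 0 < ordAt P x := by
    intro P
    rw [hS₂def, Finset.mem_preimage, hT₂, ord_placeOf]
  have hS₂' : ∀ P, P ∈ S₂ ↔ ordAt P x⁻¹ < 0 := by
    intro P
    rw [hS₂, ordAt_inv]
    omega
  have hne₁' : S₁.Nonempty := by
    obtain ⟨v, hv⟩ := hne₁
    obtain ⟨P, rfl⟩ := hsurj v
    exact ⟨P, Finset.mem_preimage.mpr hv⟩
  have hne₂' : S₂.Nonempty := by
    obtain ⟨v, hv⟩ := hne₂
    obtain ⟨P, rfl⟩ := hsurj v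
    exact ⟨P, Finset.mem_preimage.mpr hv⟩
  set U₁ := complOpen hreg S₁ with hU₁
  set U₂ := complOpen hreg S₂ with hU₂
  have hη₁ : genericPoint C ∈ U₁ := genericPoint_mem_complOpen hreg S₁
  have hη₂ : genericPoint C ∈ U₂ := genericPoint_mem_complOpen hreg S₂
  have hmem₁ : ∀ P : PrimeDiv C, P.1 ∈ U₁ ↔ 0 ≤ ordAt P x := by
    intro P
    rw [hU₁, primeDiv_mem_complOpen_iff, hS₁]
    omega
  have hmem₂ : ∀ P : PrimeDiv C, P.1 ∈ U₂ ↔ ordAt P x ≤ 0 := by
    intro P
    rw [hU₂, primeDiv_mem_complOpen_iff, hS₂]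
    omega
  obtain ⟨x₁, hx₁⟩ := exists_section_complOpen hreg S₁ x (fun Q hQ => by
    rw [hS₁] at hQ
    omega)
  obtain ⟨x₂, hx₂⟩ := exists_section_complOpen hreg S₂ x⁻¹ (fun Q hQ => by
    rw [hS₂'] at hQ
    omega)
  have hx₁0 : x₁ ≠ 0 := by
    rintro rfl
    rw [map_zero] at hx₁
    exact hx0 hx₁.symm
  have hx₂0 : x₂ ≠ 0 := by
    rintro rfl
    rw [map_zero] at hx₂
    exact inv_ne_zero hx0 hx₂.symm
  have hη₁₂ : genericPoint C ∈ U₁ ⊓ U₂ := ⟨hη₁, hη₂⟩
  refine ⟨{
    U₁ := U₁
    U₂ := U₂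
    isAffineOpen₁ := isAffineOpen_complOpen fC hreg htr S₁ hne₁'
    isAffineOpen₂ := isAffineOpen_complOpen fC hreg htr S₂ hne₂'
    sup_eq := ?_
    generic_mem₁ := hη₁
    generic_mem₂ := hη₂
    mem₁_iff := hmem₁
    mem₂_iff := hmem₂
    x₁ := x₁
    x₂ := x₂
    germ_x₁ := hx₁
    germ_x₂ := hx₂
    inf_eq₁ := ?_
    inf_eq₂ := ?_
    mul_eq_one := ?_
    finite₁ := finite_chart fC hreg htr hx S₁ hS₁ x₁ hx₁
    finite₂ := finite_chart fC hreg htr hxi S₂ hS₂' x₂ hx₂ }⟩
  · -- the two charts cover the curve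
    rw [eq_top_iff]
    intro y _
    by_cases hy : y ∈ U₁
    · exact Opens.mem_sup.mpr (Or.inl hy)
    · refine Opens.mem_sup.mpr (Or.inr ?_)
      rw [hU₁, mem_complOpen_iff] at hy
      push Not at hy
      obtain ⟨P, hP, rfl⟩ := hy
      rw [hmem₂]
      rw [hS₁] at hP
      omega
  · refine eq_basicOpen_of_ordAt hreg U₁ (U₁ ⊓ U₂) hη₁ x₁ hx₁0 inf_le_left hη₁₂ fun Q hQ => ?_
    rw [hx₁]
    have h1 := (hmem₁ Q).mp hQ
    constructor
    · intro h
      have := (hmem₂ Q).mp h.2
      omega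
    · intro h
      exact ⟨hQ, (hmem₂ Q).mpr (by omega)⟩
  · refine eq_basicOpen_of_ordAt hreg U₂ (U₁ ⊓ U₂) hη₂ x₂ hx₂0 inf_le_right hη₁₂ fun Q hQ => ?_
    rw [hx₂, ordAt_inv]
    have h1 := (hmem₂ Q).mp hQ
    constructor
    · intro h
      have := (hmem₁ Q).mp h.1
      omega
    · intro h
      exact ⟨(hmem₁ Q).mpr (by omega), hQ⟩
  · apply germFF_injective (U₁ ⊓ U₂) hη₁₂
    rw [map_mul, map_one, germFF_res inf_le_left hη₁₂, germFF_res inf_le_right hη₁₂, hx₁, hx₂]
    exact mul_inv_cancel₀ hx0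

omit [IsLocallyNoetherian C] [IsSeparated fC] [UniversallyClosed fC] [QuasiCompact fC] in
include htr in
/-- a curve has non-constant rational functions -/
theorem exists_not_mem_range : ∃ x : C.functionField, x ∉ Set.range (kToFF fC).hom := by
  let _ := kAlgebraFF fC
  have := essFiniteType_functionField fC
  obtain ⟨x, hx, -, -⟩ := exists_separating_element K C.functionField htr
  refine ⟨x, ?_⟩
  rintro ⟨c, rfl⟩
  exact hx (isAlgebraic_algebraMap (R := K) (A := C.functionField) c)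

include hreg htr in
/-- a proper regular curve over an algebraically closed field has a two-chart atlas -/
theorem exists_chartPair :
    ∃ x : C.functionField, x ∉ Set.range (kToFF fC).hom ∧ Nonempty (ChartPair fC x) := by
  obtain ⟨x, hx⟩ := exists_not_mem_range fC htr
  exact ⟨x, hx, nonempty_chartPair fC hreg htr hx⟩

end Fermat.Agent.S26lib.Aff
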