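/-
S26lib / Aff / PointDiv (helper9)  --  Project K (S26), bricks (PT) and (D0) for the relative curve.
Cartier divisors (helper7's `Hub.CDiv`) on a regular curve from Weil divisors:

* `unif P` : a uniformiser at a DVR point, `mem_stalkUnits_iff_ordAt`;
* `pointDiv hreg P : CDiv C` : the point divisor `[P]`, the family `c ↦ if c = P then ϖ_P else 1`;
  `pointDiv_isEff`, `pointDiv_t_generic`, `pointDiv_t_mem_stalkUnits`,
  `mem_maximalIdeal_iff_div_pointDiv` (its local equation at `P` is a uniformiser);
* `ofWeil hreg D : CDiv C` for `D : PrimeDiv C →₀ ℤ`, with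
  `mul_ofWeil_mem_regAt_iff : g * (ofWeil D).t Q ∈ regAt C Q ↔ g = 0 ∨ -D Q ≤ ordAt Q g`.
-/
import Mathlib
import Fermat.Agent.S26lib.Aff.Chart
import Fermat.Agent.S26lib.Hub.CaClFun
import Fermat.Agent.S26lib.Quad.RatFam

set_option autoImplicit false

noncomputable section

universe u

open AlgebraicGeometry CategoryTheory TopologicalSpace

namespace Fermat.Agent.S26lib.Aff

open Weil CurvePlace Hub Quad

variable {C : Scheme.{u}} [IsIntegral C]

/-- at the generic point every non-zero rational function is a unit -/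
theorem stalkUnits_generic : stalkUnits C (genericPoint C) = ⊤ := by
  rw [eq_top_iff]
  intro q _
  exact ⟨q, Units.ext (toFF_generic C _)⟩

variable [IsLocallyNoetherian C]

/-- a uniformiser at a DVR point, as a unit of the function field -/
def unif (P : PrimeDiv C) : (C.functionField)ˣ :=
  Units.mk0 (exists_ordAt_eq_one P).choose (exists_ordAt_eq_one P).choose_spec.1

theorem ordAt_unif (P : PrimeDiv C) : ordAt P (unif P : C.functionField) = 1 :=
  (exists_ordAt_eq_one P).choose_spec.2

/-- the units of the local ring at a DVR point are the functions of order zero -/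
theorem mem_stalkUnits_iff_ordAt (P : PrimeDiv C) (q : (C.functionField)ˣ) :
    q ∈ stalkUnits C P.1 ↔ ordAt P (q : C.functionField) = 0 := by
  constructor
  · rintro ⟨v, rfl⟩
    have hv0 : (v : C.presheaf.stalk P.1) ≠ 0 := v.ne_zero
    exact (ordAt_toFF_eq_zero_iff P hv0).mpr v.isUnit
  · intro h
    have hq0 : (q : C.functionField) ≠ 0 := q.ne_zero
    obtain ⟨a, ha⟩ := (ordAt_nonneg_iff P hq0).mp h.ge
    have ha0 : a ≠ 0 := by
      rintro rfl
      exact hq0 (by rw [← ha, map_zero])
    have hu : IsUnit a := (ordAt_toFF_eq_zero_iff P ha0).mp (by rw [ha]; exact h)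
    exact ⟨hu.unit, Units.ext ha⟩

theorem ordAt_units_zpow (P : PrimeDiv C) (q : (C.functionField)ˣ) (n : ℤ) :
    ordAt P ((q ^ n : (C.functionField)ˣ) : C.functionField) = n * ordAt P (q : C.functionField) := by
  rw [Units.val_zpow_eq_zpow_val, ordAt_zpow]

/-- regularity at a DVR point in terms of the order -/
theorem mul_mem_regAt_iff (Q : PrimeDiv C) (g : C.functionField) (q : (C.functionField)ˣ) :
    g * (q : C.functionField) ∈ regAt C Q.1 ↔ g = 0 ∨ -ordAt Q (q : C.functionField) ≤ ordAt Q g := by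
  rcases eq_or_ne g 0 with rfl | hg
  · simp only [zero_mul, true_or, iff_true]
    exact (regAt C Q.1).zero_mem
  · have hq0 : (q : C.functionField) ≠ 0 := q.ne_zero
    have hne : g * (q : C.functionField) ≠ 0 := mul_ne_zero hg hq0
    have h1 : g * (q : C.functionField) ∈ regAt C Q.1 ↔ 0 ≤ ordAt Q (g * (q : C.functionField)) :=
      (ordAt_nonneg_iff Q hne).symm
    rw [h1, ordAt_mul Q hg hq0]
    constructor
    · intro h
      right
      omega
    · rintro (h | h)
      · exact absurd h hg
      · omega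

section Point

variable (hreg : ∀ c : C, c = genericPoint C ∨ IsDiscreteValuationRing (C.presheaf.stalk c))

open Classical in
/-- the local equations of the point divisor `[P]` -/
def pointFun (P : PrimeDiv C) : C → (C.functionField)ˣ := fun c => if c = P.1 then unif P else 1

theorem pointFun_self (P : PrimeDiv C) : pointFun P P.1 = unif P := if_pos rfl

theorem pointFun_of_ne (P : PrimeDiv C) {c : C} (h : c ≠ P.1) : pointFun P c = 1 := if_neg h

variable [CompactSpace C]

include hreg in
theorem pointFun_mem (P : PrimeDiv C) : pointFun P ∈ cdivSubgroup C := by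
  classical
  have : IsNoetherian C := {}
  intro x
  by_cases hx : x = P.1
  · subst hx
    have hfin := finite_ordAt_ne_zero (unif P : C.functionField) (unif P).ne_zero
    refine ⟨complOpen hreg (hfin.toFinset.erase P), ?_, fun y hy => ?_⟩
    · rw [primeDiv_mem_complOpen_iff]
      exact Finset.notMem_erase P _
    · by_cases hyP : y = P.1
      · rw [hyP, div_self']
        exact one_mem _
      · rw [pointFun_of_ne P hyP, pointFun_self, one_div]
        apply inv_mem
        by_cases hyη : y = genericPoint C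
        · rw [hyη, stalkUnits_generic]
          exact Subgroup.mem_top _
        · have hQ : toPrimeDiv hreg hyη ∉ hfin.toFinset.erase P :=
            (primeDiv_mem_complOpen_iff hreg _ (toPrimeDiv hreg hyη)).mp hy
          have hQP : toPrimeDiv hreg hyη ≠ P := fun h => hyP (congrArg Subtype.val h)
          have h0 : ordAt (toPrimeDiv hreg hyη) (unif P : C.functionField) = 0 := by
            by_contra hne
            apply hQ
            rw [Finset.mem_erase, Set.Finite.mem_toFinset]
            exact ⟨hQP, hne⟩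
          exact (mem_stalkUnits_iff_ordAt (toPrimeDiv hreg hyη) (unif P)).mpr h0
  · refine ⟨complOpen hreg {P}, ?_, fun y hy => ?_⟩
    · rw [mem_complOpen_iff]
      intro Q hQ
      rw [Finset.mem_singleton] at hQ
      rw [hQ]
      exact hx
    · have hyP : y ≠ P.1 := by
        rw [mem_complOpen_iff] at hy
        exact hy P (Finset.mem_singleton_self P)
      rw [pointFun_of_ne P hyP, pointFun_of_ne P hx, div_self']
      exact one_mem _

/-- **the point divisor `[P]`** of a DVR point of a regular curve -/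
def pointDiv (P : PrimeDiv C) : CDiv C := ⟨pointFun P, pointFun_mem hreg P⟩

theorem pointDiv_t_self (P : PrimeDiv C) : (pointDiv hreg P).t P.1 = unif P := pointFun_self P

theorem pointDiv_t_of_ne (P : PrimeDiv C) {c : C} (h : c ≠ P.1) : (pointDiv hreg P).t c = 1 :=
  pointFun_of_ne P h

theorem pointDiv_t_generic (P : PrimeDiv C) : (pointDiv hreg P).t (genericPoint C) = 1 :=
  pointDiv_t_of_ne hreg P
    (VarSch.ne_generic_of_coheight_eq_one (coheight_primeDiv P)).symm

theorem pointDiv_t_mem_stalkUnits (P : PrimeDiv C) {c : C} (h : c ≠ P.1) :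
    (pointDiv hreg P).t c ∈ stalkUnits C c := by
  rw [pointDiv_t_of_ne hreg P h]
  exact one_mem _

theorem ordAt_pointDiv_self (P : PrimeDiv C) :
    ordAt P ((pointDiv hreg P).t P.1 : C.functionField) = 1 := by
  rw [pointDiv_t_self]
  exact ordAt_unif P

theorem pointDiv_isEff (P : PrimeDiv C) : (pointDiv hreg P).IsEff := by
  intro c
  by_cases hc : c = P.1
  · subst hc
    rw [pointDiv_t_self]
    refine (ordAt_nonneg_iff P (unif P).ne_zero).mp ?_
    rw [ordAt_unif]
    exact zero_le_one
  · rw [pointDiv_t_of_ne hreg P hc]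
    exact ⟨1, map_one _⟩

/-- **the local equation of `[P]` at `P` is a uniformiser**: a germ at `P` lies in the maximal ideal
iff it is divisible by the local equation -/
theorem mem_maximalIdeal_iff_div_pointDiv (P : PrimeDiv C) (e : C.presheaf.stalk P.1) :
    e ∈ IsLocalRing.maximalIdeal (C.presheaf.stalk P.1) ↔
      toFF C P.1 e / ((pointDiv hreg P).t P.1 : C.functionField) ∈ regAt C P.1 := by
  rcases eq_or_ne e 0 with rfl | he
  · simp only [map_zero, zero_div, zero_mem]
  have hne : toFF C P.1 e ≠ 0 := toFF_ne_zero C he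
  have hu0 : ((pointDiv hreg P).t P.1 : C.functionField) ≠ 0 := Units.ne_zero _
  have hdiv : toFF C P.1 e / ((pointDiv hreg P).t P.1 : C.functionField) ≠ 0 :=
    div_ne_zero hne hu0
  have h1 : toFF C P.1 e / ((pointDiv hreg P).t P.1 : C.functionField) ∈ regAt C P.1 ↔
      0 ≤ ordAt P (toFF C P.1 e / ((pointDiv hreg P).t P.1 : C.functionField)) :=
    (ordAt_nonneg_iff P hdiv).symm
  have h2 : ordAt P (toFF C P.1 e / ((pointDiv hreg P).t P.1 : C.functionField)) =
      ordAt P (toFF C P.1 e) - 1 := by
    rw [div_eq_mul_inv, ordAt_mul P hne (inv_ne_zero hu0), ordAt_inv, ordAt_pointDiv_self]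
    ring
  rw [h1, h2]
  constructor
  · intro hm
    have := ordAt_toFF_pos P he hm
    omega
  · intro h
    have hpos : 0 < ordAt P (toFF C P.1 e) := by omega
    obtain ⟨a, ham, hae⟩ := (ordAt_pos_iff P hne).mp hpos
    have : a = e := toFF_injective C P.1 hae
    rwa [this] at ham

include hreg in
/-- **(PT)**, existential form -/
theorem exists_pointDiv (P : PrimeDiv C) :
    ∃ D : CDiv C, D.IsEff ∧ D.t (genericPoint C) = 1 ∧ (∀ c : C, c ≠ P.1 → D.t c = 1) ∧
      (∀ c : C, c ≠ P.1 → D.t c ∈ stalkUnits C c) ∧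
      ordAt P (D.t P.1 : C.functionField) = 1 ∧
      ∀ e : C.presheaf.stalk P.1, e ∈ IsLocalRing.maximalIdeal (C.presheaf.stalk P.1) ↔
        toFF C P.1 e / (D.t P.1 : C.functionField) ∈ regAt C P.1 :=
  ⟨pointDiv hreg P, pointDiv_isEff hreg P, pointDiv_t_generic hreg P,
    fun _ h => pointDiv_t_of_ne hreg P h, fun _ h => pointDiv_t_mem_stalkUnits hreg P h,
    ordAt_pointDiv_self hreg P, mem_maximalIdeal_iff_div_pointDiv hreg P⟩

/-! ### Cartier divisors from Weil divisors -/

/-- the Cartier divisor of a Weil divisor on a regular curve -/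
def ofWeil (D : PrimeDiv C →₀ ℤ) : CDiv C := D.prod fun P n => pointDiv hreg P ^ n

/-- evaluation of the local equation at a point, as a group homomorphism -/
def evalHom (c : C) : CDiv C →* (C.functionField)ˣ :=
  (Pi.evalMonoidHom (fun _ : C => (C.functionField)ˣ) c).comp (cdivSubgroup C).subtype

omit [IsLocallyNoetherian C] [CompactSpace C] in
theorem evalHom_apply (c : C) (D : CDiv C) : evalHom c D = D.t c := rfl

theorem ofWeil_t (D : PrimeDiv C →₀ ℤ) (c : C) :
    (ofWeil hreg D).t c = D.prod fun P n => (pointDiv hreg P).t c ^ n := by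
  rw [← evalHom_apply, ofWeil, Finsupp.prod, map_prod, Finsupp.prod]
  refine Finset.prod_congr rfl fun P _ => ?_
  rw [map_zpow, evalHom_apply]

theorem ofWeil_t_primeDiv (D : PrimeDiv C →₀ ℤ) (Q : PrimeDiv C) :
    (ofWeil hreg D).t Q.1 = unif Q ^ D Q := by
  classical
  rw [ofWeil_t, Finsupp.prod, Finset.prod_eq_single Q]
  · rw [pointDiv_t_self]
  · intro P _ hPQ
    have : Q.1 ≠ P.1 := fun h => hPQ (Subtype.ext h).symm
    rw [pointDiv_t_of_ne hreg P this, one_zpow]
  · intro hQ
    rw [Finsupp.notMem_support_iff.mp hQ, zpow_zero]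

theorem ofWeil_t_generic (D : PrimeDiv C →₀ ℤ) : (ofWeil hreg D).t (genericPoint C) = 1 := by
  rw [ofWeil_t, Finsupp.prod]
  refine Finset.prod_eq_one fun P _ => ?_
  rw [pointDiv_t_generic, one_zpow]

theorem ordAt_ofWeil (D : PrimeDiv C →₀ ℤ) (Q : PrimeDiv C) :
    ordAt Q ((ofWeil hreg D).t Q.1 : C.functionField) = D Q := by
  rw [ofWeil_t_primeDiv, ordAt_units_zpow, ordAt_unif, mul_one]

/-- **the dictionary**: `g·d_Q` is regular at `Q` iff `ord_Q g ≥ -D(Q)` -/
theorem mul_ofWeil_mem_regAt_iff (D : PrimeDiv C →₀ ℤ) (Q : PrimeDiv C) (g : C.functionField) :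
    g * ((ofWeil hreg D).t Q.1 : C.functionField) ∈ regAt C Q.1 ↔ g = 0 ∨ -D Q ≤ ordAt Q g := by
  rw [mul_mem_regAt_iff, ordAt_ofWeil]

theorem ofWeil_t_mem_stalkUnits (D : PrimeDiv C →₀ ℤ) (Q : PrimeDiv C) (h : D Q = 0) :
    (ofWeil hreg D).t Q.1 ∈ stalkUnits C Q.1 := by
  rw [mem_stalkUnits_iff_ordAt, ordAt_ofWeil, h]

theorem ofWeil_isEff (D : PrimeDiv C →₀ ℤ) (hD : ∀ P, 0 ≤ D P) : (ofWeil hreg D).IsEff := by
  intro c
  by_cases hc : c = genericPoint C
  · subst hc
    rw [ofWeil_t_generic]
    exact ⟨1, map_one _⟩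
  · have h := (ordAt_nonneg_iff (toPrimeDiv hreg hc)
      (Units.ne_zero ((ofWeil hreg D).t (toPrimeDiv hreg hc).1))).mp
      (by rw [ordAt_ofWeil]; exact hD _)
    exact h

/-- twisting by a point: `O(D)(-p) = O(D - p)` -/
theorem ofWeil_div_pointDiv (D : PrimeDiv C →₀ ℤ) (p : PrimeDiv C) :
    ofWeil hreg D / pointDiv hreg p = ofWeil hreg (D - Finsupp.single p 1) := by
  classical
  apply CDiv.ext
  intro c
  rw [CDiv.div_t]
  by_cases hc : c = genericPoint C
  · subst hc
    rw [ofWeil_t_generic, ofWeil_t_generic, pointDiv_t_generic, div_one]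
  · have hcQ : c = (toPrimeDiv hreg hc).1 := rfl
    rw [hcQ, ofWeil_t_primeDiv, ofWeil_t_primeDiv, Finsupp.sub_apply, Finsupp.single_apply]
    by_cases hp : p = toPrimeDiv hreg hc
    · rw [if_pos hp, ← hp, pointDiv_t_self, zpow_sub_one]
      rfl
    · rw [if_neg hp, sub_zero, pointDiv_t_of_ne hreg p (fun h => hp (Subtype.ext h).symm),
        div_one]

end Point

end Fermat.Agent.S26lib.Aff
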