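/-
S26lib / Aff / Residue (helper9)  --  Project K (S26), curve-side bricks for the relative curve.
On a curve `C` locally of finite type over an algebraically closed field `K`:

* `exists_sub_const_mem_maximalIdeal` : every germ at a DVR point is a constant modulo the maximal
  ideal (the residue field is `K`);
* `exists_const_ordAt_sub_pos` : the same for rational functions, in terms of `ordAt`;
* `exists_ordAt_pos`, `exists_ordAt_neg` : a non-constant function on a proper regular curve has a
  zero and a pole.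
-/
import Mathlib
import Fermat.Agent.S26lib.Aff.Chart
import Fermat.Agent.S26lib.Prod.KPoints

set_option autoImplicit false

noncomputable section

universe u

open AlgebraicGeometry CategoryTheory TopologicalSpace

namespace Fermat.Agent.S26lib.Aff

open Weil CurvePlace Quad

variable {K : Type u} [Field K] {C : Scheme.{u}} [IsIntegral C]
  (fC : C ⟶ Spec (CommRingCat.of K))

/-- the constants of a local ring, seen in the function field -/
theorem toFF_constStalk (x : C) (c : K) :
    toFF C x (Prod.KPt.constStalk fC x c) = (kToFF fC).hom c := by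
  have h := C.presheaf.germ_stalkSpecializes (U := ⊤) (show x ∈ (⊤ : C.Opens) from trivial)
    (generic_specializes C x)
  show (C.presheaf.stalkSpecializes (generic_specializes C x)).hom
      ((C.presheaf.germ ⊤ x trivial).hom _) = _
  exact congrArg (fun φ => φ.hom ((fC.appTop).hom
    ((Scheme.ΓSpecIso (CommRingCat.of K)).inv.hom c))) h

variable [IsAlgClosed K] [LocallyOfFiniteType fC]

omit [IsIntegral C] in
/-- **the residue field of a closed point is `K`**: every germ at a closed point is a constant
modulo the maximal ideal -/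
theorem exists_sub_const_mem_maximalIdeal (x : C) (hx : IsClosed ({x} : Set C))
    (e : C.presheaf.stalk x) :
    ∃ c : K, e - Prod.KPt.constStalk fC x c ∈ IsLocalRing.maximalIdeal (C.presheaf.stalk x) := by
  have key : ∀ (a : Prod.KPt fC) (y : C) (_ : a.pt = y) (e : C.presheaf.stalk y),
      ∃ c : K, e - Prod.KPt.constStalk fC y c ∈ IsLocalRing.maximalIdeal (C.presheaf.stalk y) := by
    rintro a y rfl e
    exact ⟨a.eval e, Prod.KPt.sub_const_mem_maximalIdeal a e⟩
  exact key (Prod.KPt.ofClosedPoint fC x hx) x (Prod.KPt.pt_ofClosedPoint fC x hx) e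

variable [IsLocallyNoetherian C]
  (hreg : ∀ c : C, c = genericPoint C ∨ IsDiscreteValuationRing (C.presheaf.stalk c))

include hreg in
/-- a rational function regular at a DVR point is congruent to a constant there -/
theorem exists_const_ordAt_sub_pos (P : PrimeDiv C) (g : C.functionField)
    (hg : g ∈ Set.range (toFF C P.1)) :
    ∃ c : K, g = (kToFF fC).hom c ∨ 0 < ordAt P (g - (kToFF fC).hom c) := by
  obtain ⟨e, rfl⟩ := hg
  obtain ⟨c, hc⟩ := exists_sub_const_mem_maximalIdeal fC P.1 (isClosed_singleton_primeDiv hreg P) e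
  refine ⟨c, ?_⟩
  by_cases h0 : e - Prod.KPt.constStalk fC P.1 c = 0
  · left
    rw [← toFF_constStalk fC P.1 c, sub_eq_zero.mp h0]
  · right
    have := ordAt_toFF_pos P h0 hc
    rwa [map_sub, toFF_constStalk] at this

variable [IsSeparated fC] [UniversallyClosed fC] [QuasiCompact fC]
  (htr : letI := kAlgebraFF fC; Algebra.trdeg K C.functionField = 1)

omit [IsSeparated fC] in
include hreg htr in
/-- a non-constant function on a proper regular curve has a zero and a pole -/
theorem exists_ordAt_pos_neg {x : C.functionField} (hx : x ∉ Set.range (kToFF fC).hom) :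
    (∃ P : PrimeDiv C, 0 < ordAt P x) ∧ ∃ P : PrimeDiv C, ordAt P x < 0 := by
  let _ := kAlgebraFF fC
  obtain ⟨γ, hF⟩ := exists_isCurveOfGenus fC htr
  have hsurj := placeOf_surjective fC hreg
  have hx' : x ∉ Set.range (algebraMap K C.functionField) := hx
  obtain ⟨T₁, T₂, hT₁, hT₂, -, ⟨v₁, hv₁⟩, ⟨v₂, hv₂⟩⟩ := CechRR.exists_poles_zeros hF hx'
  obtain ⟨P₁, rfl⟩ := hsurj v₁
  obtain ⟨P₂, rfl⟩ := hsurj v₂
  refine ⟨⟨P₂, ?_⟩, ⟨P₁, ?_⟩⟩
  · rw [← ord_placeOf fC P₂ x]; exact (hT₂ _).mp hv₂
  · rw [← ord_placeOf fC P₁ x]; exact (hT₁ _).mp hv₁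

omit [IsSeparated fC] in
include hreg htr in
/-- the chart `{x ≠ ∞}` of a chart pair contains a point outside the chart `{x ≠ 0}` -/
theorem ChartPair.exists_zero {x : C.functionField} (hx : x ∉ Set.range (kToFF fC).hom)
    (hC : ChartPair fC x) : ∃ P : PrimeDiv C, P.1 ∈ hC.U₁ ∧ P.1 ∉ hC.U₂ ∧ 0 < ordAt P x := by
  obtain ⟨⟨P, hP⟩, -⟩ := exists_ordAt_pos_neg fC hreg htr hx
  refine ⟨P, (hC.mem₁_iff P).mpr hP.le, fun h => ?_, hP⟩
  have := (hC.mem₂_iff P).mp h
  omega

end Fermat.Agent.S26lib.Aff
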