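/-
S26lib / Aff / Value (helper9)  --  Project K (S26), (LIFT) leaf (VAL).
A section of `O(d₀)` over the chart `U₁` minus its value at a point `p` of `U₁` where `d₀` is trivial
is a section of the twist `O(d₀ - p)` over `U₁` (helper3's `RelCurve.ValueStatement`).
-/
import Mathlib
import Fermat.Agent.S26lib.RelCurve.Targets

set_option autoImplicit false

noncomputable section

universe u

open AlgebraicGeometry CategoryTheory TopologicalSpace

namespace Fermat.Agent.S26lib.Aff

open Weil CurvePlace Hub Quad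

variable {K : Type u} [Field K] [IsAlgClosed K] {C : Scheme.{u}} [IsIntegral C]
  [IsLocallyNoetherian C] (fC : C ⟶ Spec (CommRingCat.of K)) [LocallyOfFiniteType fC]
  (hreg : ∀ c : C, c = genericPoint C ∨ IsDiscreteValuationRing (C.presheaf.stalk c))
  [CompactSpace C]

omit [IsAlgClosed K] [IsLocallyNoetherian C] [LocallyOfFiniteType fC] [CompactSpace C] in
/-- the constants are regular everywhere -/
theorem kToFF_mem_regAt (κ : K) (c : C) : (kToFF fC).hom κ ∈ regAt C c :=
  ⟨Prod.KPt.constStalk fC c κ, toFF_constStalk fC c κ⟩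

/-- **(VAL)**, for any open set `U` instead of the chart `U₁` -/
theorem value_statement (U : C.Opens) (d₀ : CDiv C) (p : PrimeDiv C) (hd₀ : d₀.IsEff)
    (hp₁ : p.1 ∈ U) (hpd : d₀.t p.1 ∈ stalkUnits C p.1) (g : C.functionField)
    (hg : ∀ c ∈ U, g * ((d₀.t c : (C.functionField)ˣ) : C.functionField) ∈ regAt C c) :
    ∃ κ : K, ∀ c ∈ U, (g - (kToFF fC).hom κ) *
      (((d₀ / pointDiv hreg p).t c : (C.functionField)ˣ) : C.functionField) ∈ regAt C c := by
  -- `g` is regular at `p`
  have hgp : g ∈ regAt C p.1 := by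
    obtain ⟨v, hv⟩ := hpd
    have h1 := hg p.1 hp₁
    have h2 : ((d₀.t p.1 : (C.functionField)ˣ) : C.functionField)⁻¹ ∈ regAt C p.1 := by
      refine ⟨((v⁻¹ : (C.presheaf.stalk p.1)ˣ) : C.presheaf.stalk p.1), ?_⟩
      rw [← hv]
      show toFF C p.1 ((v⁻¹ : (C.presheaf.stalk p.1)ˣ) : C.presheaf.stalk p.1) =
        (toFF C p.1 (v : C.presheaf.stalk p.1))⁻¹
      rw [← map_units_inv]
    have h3 := Subring.mul_mem _ h1 h2
    rwa [mul_assoc, mul_inv_cancel₀ (Units.ne_zero _), mul_one] at h3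
  obtain ⟨κ, hκ⟩ := exists_const_ordAt_sub_pos fC hreg p g hgp
  refine ⟨κ, fun c hc => ?_⟩
  rw [CDiv.div_t]
  by_cases hcp : c = p.1
  · subst hcp
    rcases hκ with hκ | hκ
    · rw [hκ, sub_self, zero_mul]
      exact (regAt C p.1).zero_mem
    · have hne : g - (kToFF fC).hom κ ≠ 0 := by
        intro h0
        rw [h0, ordAt_zero] at hκ
        exact lt_irrefl _ hκ
      rw [mul_mem_regAt_iff]
      right
      rw [Units.val_div_eq_div_val, div_eq_mul_inv,
        ordAt_mul p (Units.ne_zero _) (inv_ne_zero (Units.ne_zero _)), ordAt_inv,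
        ordAt_pointDiv_self, (mem_stalkUnits_iff_ordAt p _).mp hpd]
      omega
  · rw [pointDiv_t_of_ne hreg p hcp, div_one, sub_mul]
    refine Subring.sub_mem _ (hg c hc) (Subring.mul_mem _ (kToFF_mem_regAt fC κ c) ?_)
    exact hd₀ c

/-- **(VAL)**: helper3's `RelCurve.ValueStatement` -/
theorem valueStatement {x : C.functionField} (hC : ChartPair fC x) (d₀ : CDiv C)
    (p : PrimeDiv C) (hd₀ : d₀.IsEff) (hp₁ : p.1 ∈ hC.U₁)
    (hpd : d₀.t p.1 ∈ stalkUnits C p.1) : RelCurve.ValueStatement fC hreg hC d₀ p :=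
  fun g hg => value_statement fC hreg hC.U₁ d₀ p hd₀ hp₁ hpd g hg

end Fermat.Agent.S26lib.Aff
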