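/-
S26lib / Aff / NonSpecial (helper9)  --  Project K (S26), brick (D0) for the relative curve.
**The two-chart atlas of a proper regular curve together with a non-special effective Cartier divisor
`d₀`** (helper7's `Hub.CDiv`): `H⁰(C, O(d₀)) = K` and the Čech differential of `O(d₀)` for the atlas is
onto (`H¹(C, O(d₀)) = 0`); moreover every twist `d₀ / [p]` by a point off the support of `d₀` has
`H⁰ = 0` and `H¹ = 0`.  This is `CurvePlace.exists_nonspecial_cech_twist` +
`Aff.nonempty_chartPair` + the dictionary `Aff.mul_ofWeil_mem_regAt_iff`.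
-/
import Mathlib
import Fermat.Agent.S26lib.Aff.PointDiv
import Fermat.Agent.S26lib.Aff.Residue
import Fermat.Agent.S26lib.CurvePlace.Twist

set_option autoImplicit false

noncomputable section

universe u

open AlgebraicGeometry CategoryTheory TopologicalSpace

namespace Fermat.Agent.S26lib.Aff

open Weil CurvePlace Hub Quad

section Dict

variable {K : Type u} [Field K] {C : Scheme.{u}} [IsIntegral C] [IsLocallyNoetherian C]
  [CompactSpace C] {fC : C ⟶ Spec (CommRingCat.of K)}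
  (hreg : ∀ c : C, c = genericPoint C ∨ IsDiscreteValuationRing (C.presheaf.stalk c))

omit [IsLocallyNoetherian C] [CompactSpace C] in
theorem mul_mem_regAt_generic (g : C.functionField) (q : (C.functionField)ˣ) :
    g * (q : C.functionField) ∈ regAt C (genericPoint C) := by
  rw [regAt_generic]
  exact Subring.mem_top _

/-- the Čech decomposition for the Cartier divisor of a Weil divisor, on a chart pair -/
theorem cech_ofWeil {x : C.functionField} (hC : ChartPair fC x) (D : PrimeDiv C →₀ ℤ)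
    (hcech : ∀ h : C.functionField, (∀ P, ordAt P x = 0 → h = 0 ∨ -D P ≤ ordAt P h) →
        ∃ h₁ h₂ : C.functionField, h = h₁ + h₂ ∧
          (∀ P, 0 ≤ ordAt P x → h₁ = 0 ∨ -D P ≤ ordAt P h₁) ∧
          (∀ P, ordAt P x ≤ 0 → h₂ = 0 ∨ -D P ≤ ordAt P h₂))
    (g : C.functionField)
    (hg : ∀ c ∈ hC.U₁ ⊓ hC.U₂, g * ((ofWeil hreg D).t c : C.functionField) ∈ regAt C c) :
    ∃ g₁ g₂ : C.functionField, g = g₁ + g₂ ∧
      (∀ c ∈ hC.U₁, g₁ * ((ofWeil hreg D).t c : C.functionField) ∈ regAt C c) ∧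
      (∀ c ∈ hC.U₂, g₂ * ((ofWeil hreg D).t c : C.functionField) ∈ regAt C c) := by
  obtain ⟨g₁, g₂, hsum, h₁, h₂⟩ := hcech g fun P hP =>
    (mul_ofWeil_mem_regAt_iff hreg D P g).mp
      (hg P.1 ⟨(hC.mem₁_iff P).mpr hP.ge, (hC.mem₂_iff P).mpr hP.le⟩)
  refine ⟨g₁, g₂, hsum, fun c hc => ?_, fun c hc => ?_⟩
  · by_cases hcη : c = genericPoint C
    · rw [hcη]; exact mul_mem_regAt_generic g₁ _
    · exact (mul_ofWeil_mem_regAt_iff hreg D (toPrimeDiv hreg hcη) g₁).mpr
        (h₁ _ ((hC.mem₁_iff (toPrimeDiv hreg hcη)).mp hc))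
  · by_cases hcη : c = genericPoint C
    · rw [hcη]; exact mul_mem_regAt_generic g₂ _
    · exact (mul_ofWeil_mem_regAt_iff hreg D (toPrimeDiv hreg hcη) g₂).mpr
        (h₂ _ ((hC.mem₂_iff (toPrimeDiv hreg hcη)).mp hc))

end Dict

variable {K : Type u} [Field K] [IsAlgClosed K] {C : Scheme.{u}} [IsIntegral C]
  [IsLocallyNoetherian C] (fC : C ⟶ Spec (CommRingCat.of K))
  [LocallyOfFiniteType fC] [IsSeparated fC] [UniversallyClosed fC] [QuasiCompact fC]
  (hreg : ∀ c : C, c = genericPoint C ∨ IsDiscreteValuationRing (C.presheaf.stalk c))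
  (htr : letI := kAlgebraFF fC; Algebra.trdeg K C.functionField = 1)

include hreg htr in
/-- **(D0) with twists**: for a non-constant `x` and a finite set `T` of points, the two-chart atlas
of `x` and an effective Cartier divisor `d₀`, trivial at the points of `T`, with `H⁰(O(d₀)) = K` and
`H¹(O(d₀)) = 0` computed on the atlas; and for every point `p` where `d₀` is trivial the twist
`d₀ / [p]` has `H⁰ = 0` and `H¹ = 0`. -/
theorem exists_chartPair_nonspecial_twist [CompactSpace C] {x : C.functionField}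
    (hx : x ∉ Set.range (kToFF fC).hom) (T : Finset (PrimeDiv C)) :
    ∃ (hC : ChartPair fC x) (d₀ : CDiv C), d₀.IsEff ∧ d₀.t (genericPoint C) = 1 ∧
      (∀ p ∈ T, d₀.t p.1 ∈ stalkUnits C p.1) ∧
      (∀ g : C.functionField,
        (∀ c : C, g * (d₀.t c : C.functionField) ∈ regAt C c) → g ∈ Set.range (kToFF fC).hom) ∧
      (∀ g : C.functionField,
        (∀ c ∈ hC.U₁ ⊓ hC.U₂, g * (d₀.t c : C.functionField) ∈ regAt C c) →
        ∃ g₁ g₂ : C.functionField, g = g₁ + g₂ ∧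
          (∀ c ∈ hC.U₁, g₁ * (d₀.t c : C.functionField) ∈ regAt C c) ∧
          (∀ c ∈ hC.U₂, g₂ * (d₀.t c : C.functionField) ∈ regAt C c)) ∧
      ∀ p : PrimeDiv C, d₀.t p.1 ∈ stalkUnits C p.1 →
        (∀ g : C.functionField,
          (∀ c : C, g * ((d₀ / pointDiv hreg p).t c : C.functionField) ∈ regAt C c) → g = 0) ∧
        (∀ g : C.functionField,
          (∀ c ∈ hC.U₁ ⊓ hC.U₂,
            g * ((d₀ / pointDiv hreg p).t c : C.functionField) ∈ regAt C c) →
          ∃ g₁ g₂ : C.functionField, g = g₁ + g₂ ∧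
            (∀ c ∈ hC.U₁, g₁ * ((d₀ / pointDiv hreg p).t c : C.functionField) ∈ regAt C c) ∧
            (∀ c ∈ hC.U₂, g₂ * ((d₀ / pointDiv hreg p).t c : C.functionField) ∈ regAt C c)) := by
  obtain ⟨hC⟩ := nonempty_chartPair fC hreg htr hx
  obtain ⟨D₀, hD₀, hT, hH0, hH1, htw⟩ :=
    CurvePlace.exists_nonspecial_cech_twist fC hreg htr hx T
  refine ⟨hC, ofWeil hreg D₀, ofWeil_isEff hreg D₀ hD₀, ofWeil_t_generic hreg D₀,
    fun p hp => ofWeil_t_mem_stalkUnits hreg D₀ p (hT p hp), fun g hg => ?_, fun g hg => ?_,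
    fun p hp => ?_⟩
  · exact hH0 g fun P => (mul_ofWeil_mem_regAt_iff hreg D₀ P g).mp (hg P.1)
  · exact cech_ofWeil hreg hC D₀ hH1 g hg
  · have hp0 : D₀ p = 0 := by
      rw [mem_stalkUnits_iff_ordAt, ordAt_ofWeil] at hp
      exact hp
    obtain ⟨h0, h1⟩ := htw p hp0
    rw [ofWeil_div_pointDiv]
    refine ⟨fun g hg => ?_, fun g hg => ?_⟩
    · exact h0 g fun P => (mul_ofWeil_mem_regAt_iff hreg _ P g).mp (hg P.1)
    · exact cech_ofWeil hreg hC _ h1 g hg

include hreg htr in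
/-- **(D0)**: for a non-constant `x` and a finite set `T` of points, the two-chart atlas of `x` and
an effective Cartier divisor `d₀`, trivial at the points of `T`, with `H⁰(O(d₀)) = K` and
`H¹(O(d₀)) = 0` computed on the atlas. -/
theorem exists_chartPair_nonspecial {x : C.functionField} (hx : x ∉ Set.range (kToFF fC).hom)
    (T : Finset (PrimeDiv C)) :
    ∃ (hC : ChartPair fC x) (d₀ : CDiv C), d₀.IsEff ∧ d₀.t (genericPoint C) = 1 ∧
      (∀ p ∈ T, d₀.t p.1 ∈ stalkUnits C p.1) ∧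
      (∀ g : C.functionField,
        (∀ c : C, g * (d₀.t c : C.functionField) ∈ regAt C c) → g ∈ Set.range (kToFF fC).hom) ∧
      (∀ g : C.functionField,
        (∀ c ∈ hC.U₁ ⊓ hC.U₂, g * (d₀.t c : C.functionField) ∈ regAt C c) →
        ∃ g₁ g₂ : C.functionField, g = g₁ + g₂ ∧
          (∀ c ∈ hC.U₁, g₁ * (d₀.t c : C.functionField) ∈ regAt C c) ∧
          (∀ c ∈ hC.U₂, g₂ * (d₀.t c : C.functionField) ∈ regAt C c)) := by
  have : CompactSpace C := QuasiCompact.compactSpace_of_compactSpace fC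
  obtain ⟨hC, d₀, h1, h2, h3, h4, h5, -⟩ := exists_chartPair_nonspecial_twist fC hreg htr hx T
  exact ⟨hC, d₀, h1, h2, h3, h4, h5⟩

include hreg htr in
/-- **the complete curve-side input of the lifting theorem**: a non-constant `x`, its two-chart
atlas, a zero `p` of `x` (a point of `U₁` outside `U₂`) and a non-special effective Cartier divisor
`d₀`, trivial at `p`, with `H⁰(O(d₀)) = K`, `H¹(O(d₀)) = 0`, `H⁰(O(d₀ - p)) = 0 = H¹(O(d₀ - p))`. -/
theorem exists_chartPair_nonspecial_point [CompactSpace C] :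
    ∃ (x : C.functionField) (_ : x ∉ Set.range (kToFF fC).hom) (hC : ChartPair fC x)
      (d₀ : CDiv C) (p : PrimeDiv C), d₀.IsEff ∧ d₀.t (genericPoint C) = 1 ∧
      (∀ g : C.functionField,
        (∀ c : C, g * (d₀.t c : C.functionField) ∈ regAt C c) → g ∈ Set.range (kToFF fC).hom) ∧
      (∀ g : C.functionField,
        (∀ c ∈ hC.U₁ ⊓ hC.U₂, g * (d₀.t c : C.functionField) ∈ regAt C c) →
        ∃ g₁ g₂ : C.functionField, g = g₁ + g₂ ∧
          (∀ c ∈ hC.U₁, g₁ * (d₀.t c : C.functionField) ∈ regAt C c) ∧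
          (∀ c ∈ hC.U₂, g₂ * (d₀.t c : C.functionField) ∈ regAt C c)) ∧
      p.1 ∈ hC.U₁ ∧ p.1 ∉ hC.U₂ ∧ 0 < ordAt p x ∧ d₀.t p.1 ∈ stalkUnits C p.1 ∧
      (∀ g : C.functionField,
        (∀ c : C, g * ((d₀ / pointDiv hreg p).t c : C.functionField) ∈ regAt C c) → g = 0) ∧
      (∀ g : C.functionField,
        (∀ c ∈ hC.U₁ ⊓ hC.U₂,
          g * ((d₀ / pointDiv hreg p).t c : C.functionField) ∈ regAt C c) →
        ∃ g₁ g₂ : C.functionField, g = g₁ + g₂ ∧
          (∀ c ∈ hC.U₁, g₁ * ((d₀ / pointDiv hreg p).t c : C.functionField) ∈ regAt C c) ∧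
          (∀ c ∈ hC.U₂, g₂ * ((d₀ / pointDiv hreg p).t c : C.functionField) ∈ regAt C c)) := by
  classical
  obtain ⟨x, hx⟩ := exists_not_mem_range fC htr
  obtain ⟨⟨p, hp⟩, -⟩ := exists_ordAt_pos_neg fC hreg htr hx
  obtain ⟨hC, d₀, h1, h2, h3, h4, h5, h6⟩ :=
    exists_chartPair_nonspecial_twist fC hreg htr hx {p}
  have hpu : d₀.t p.1 ∈ stalkUnits C p.1 := h3 p (Finset.mem_singleton_self p)
  obtain ⟨h7, h8⟩ := h6 p hpu
  refine ⟨x, hx, hC, d₀, p, h1, h2, h4, h5, (hC.mem₁_iff p).mpr hp.le, fun h => ?_, hp, hpu,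
    h7, h8⟩
  have := (hC.mem₂_iff p).mp h
  omega

/-- the finite set of DVR points lying in a finite set of points -/
def primeDivsIn (S : Set C) (hS : S.Finite) : Finset (PrimeDiv C) :=
  (hS.preimage (f := fun P : PrimeDiv C => P.1) fun _ _ _ _ h => Subtype.ext h).toFinset

omit [IsLocallyNoetherian C] in
theorem mem_primeDivsIn (S : Set C) (hS : S.Finite) (P : PrimeDiv C) :
    P ∈ primeDivsIn S hS ↔ P.1 ∈ S := by
  rw [primeDivsIn, Set.Finite.mem_toFinset]
  rfl

include hreg htr in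
/-- (D0) with the set of points to avoid given as a finite set of points of the scheme -/
theorem exists_chartPair_nonspecial' {x : C.functionField} (hx : x ∉ Set.range (kToFF fC).hom)
    (S : Set C) (hS : S.Finite) :
    ∃ (hC : ChartPair fC x) (d₀ : CDiv C), d₀.IsEff ∧ d₀.t (genericPoint C) = 1 ∧
      (∀ p ∈ S, d₀.t p ∈ stalkUnits C p) ∧
      (∀ g : C.functionField,
        (∀ c : C, g * (d₀.t c : C.functionField) ∈ regAt C c) → g ∈ Set.range (kToFF fC).hom) ∧
      (∀ g : C.functionField,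
        (∀ c ∈ hC.U₁ ⊓ hC.U₂, g * (d₀.t c : C.functionField) ∈ regAt C c) →
        ∃ g₁ g₂ : C.functionField, g = g₁ + g₂ ∧
          (∀ c ∈ hC.U₁, g₁ * (d₀.t c : C.functionField) ∈ regAt C c) ∧
          (∀ c ∈ hC.U₂, g₂ * (d₀.t c : C.functionField) ∈ regAt C c)) := by
  obtain ⟨hC, d₀, h1, h2, h3, h4, h5⟩ :=
    exists_chartPair_nonspecial fC hreg htr hx (primeDivsIn S hS)
  refine ⟨hC, d₀, h1, h2, fun p hp => ?_, h4, h5⟩
  by_cases hpη : p = genericPoint C
  · rw [hpη, stalkUnits_generic]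
    exact Subgroup.mem_top _
  · exact h3 (toPrimeDiv hreg hpη) ((mem_primeDivsIn S hS _).mpr hp)

end Fermat.Agent.S26lib.Aff
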